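import Fermat.Agent.TW.LevelField
import Fermat.Agent.TW.RayL.Main
import Fermat.Prelude.Def_GaloisRep_Residual

/-!
# Degree one places and Frobenius elements fixing the field
-/

set_option autoImplicit false

open IsDedekindDomain NumberField Polynomial
open scoped Pointwise

noncomputable section

namespace FLTAgent.TW

open FLTAgent.Frobenius

namespace NormChar

variable (K : IntermediateField ℚ Qb) [FiniteDimensional ℚ K]

/-- The places above a finite set of prime numbers form a finite set. -/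
theorem finite_places_above (S : Finset ℕ) :
    {P : HeightOneSpectrum (𝓞 K) | ∃ l ∈ S, l.Prime ∧ (l : 𝓞 K) ∈ P.asIdeal}.Finite := by
  refine ((S.filter Nat.Prime).finite_toSet.biUnion (t := fun l =>
    {P : HeightOneSpectrum (𝓞 K) | P.asIdeal ∣ Ideal.span {(l : 𝓞 K)}})
    fun l hl => Ideal.finite_factors ?_).subset ?_
  · exact mt Ideal.span_singleton_eq_bot.mp
      (Nat.cast_ne_zero.mpr (Finset.mem_filter.mp hl).2.ne_zero)
  · rintro P ⟨l, hlS, hl, hlP⟩
    simp only [Set.mem_iUnion]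
    exact ⟨l, Finset.mem_filter.mpr ⟨hlS, hl⟩,
      Ideal.dvd_iff_le.mpr ((Ideal.span_singleton_le_iff_mem _).mpr hlP)⟩

variable {K} {A : ValuationSubring Qb} {l : ℕ} {hl : l.Prime} {hA : A.LiesOverPrime l}

theorem absNorm_eq_of_isDegreeOne (h : IsDegreeOne (placeIn K A hl hA)) :
    Ideal.absNorm (placeIn K A hl hA).asIdeal = l :=
  eq_of_natCast_mem h hl _ (Ideal.absNorm_mem _) natCast_mem_placeIn

/-- On a degree one place `x ^ l ≡ x`. -/
theorem pow_sub_mem_of_isDegreeOne (h : IsDegreeOne (placeIn K A hl hA)) (x : 𝓞 K) :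
    x ^ l - x ∈ (placeIn K A hl hA).asIdeal := by
  set P := (placeIn K A hl hA).asIdeal
  have : P.IsMaximal := (placeIn K A hl hA).isPrime.isMaximal (placeIn K A hl hA).ne_bot
  have hcard : Nat.card (𝓞 K ⧸ P) = l := by
    rw [← Submodule.cardQuot_apply, ← Ideal.absNorm_apply]
    exact absNorm_eq_of_isDegreeOne h
  have : Finite (𝓞 K ⧸ P) := Nat.finite_of_card_ne_zero (by rw [hcard]; exact hl.ne_zero)
  let _ : Field (𝓞 K ⧸ P) := Ideal.Quotient.field P
  have : Fintype (𝓞 K ⧸ P) := Fintype.ofFinite _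
  rw [← Ideal.Quotient.eq_zero_iff_mem, map_sub, map_pow, sub_eq_zero]
  have := FiniteField.pow_card (Ideal.Quotient.mk P x)
  rwa [← Nat.card_eq_fintype_card, hcard] at this

/-- A Frobenius element fixing `K` gives a degree one place. -/
theorem isDegreeOne_of_frobenius_mem {φ : Γ} (hφ : A.IsFrobeniusAt φ l)
    (hφK : φ ∈ K.fixingSubgroup) : IsDegreeOne (placeIn K A hl hA) := by
  set P := (placeIn K A hl hA).asIdeal
  have : P.IsMaximal := (placeIn K A hl hA).isPrime.isMaximal (placeIn K A hl hA).ne_bot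
  let _ : Field (𝓞 K ⧸ P) := Ideal.Quotient.field P
  have hpow : ∀ q : 𝓞 K ⧸ P, q ^ l = q := by
    intro q
    obtain ⟨x, rfl⟩ := Ideal.Quotient.mk_surjective q
    rw [← map_pow, Ideal.Quotient.eq, ← neg_sub, Ideal.neg_mem_iff]
    show toZbar K (x - x ^ l) ∈ centre A
    have h := (isFrobeniusAt_iff_centre hl.pos).mp hφ (toZbar K x)
    have hfix : φ • toZbar K x = toZbar K x := Subtype.ext (apply_coe_eq_of_mem_fixing hφK (x : K))
    rw [hfix] at h
    rwa [map_sub, map_pow]
  have hf0 : (X ^ l - X : (𝓞 K ⧸ P)[X]) ≠ 0 :=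
    FiniteField.X_pow_card_sub_X_ne_zero _ hl.one_lt
  have hle : Nat.card (𝓞 K ⧸ P) ≤ l := by
    have hfin : Finite (𝓞 K ⧸ P) :=
      Ideal.finiteQuotientOfFreeOfNeBot P (placeIn K A hl hA).ne_bot
    have := Fintype.ofFinite (𝓞 K ⧸ P)
    rw [Nat.card_eq_fintype_card, ← FiniteField.X_pow_card_sub_X_natDegree_eq (𝓞 K ⧸ P) hl.one_lt]
    refine Polynomial.card_le_degree_of_subset_roots (Z := Finset.univ) fun q _ => ?_
    rw [mem_roots hf0]
    simp [hpow q]
  have hdvd : l ∣ Ideal.absNorm P := by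
    have hmem : ((l : ℕ) : 𝓞 K) ∈ P := natCast_mem_placeIn
    have : Ideal.absNorm P ≠ 1 := fun h =>
      (placeIn K A hl hA).isPrime.ne_top (Ideal.absNorm_eq_one_iff.mp h)
    obtain ⟨q, hq, hqd⟩ := Nat.exists_prime_and_dvd this
    have hd : Ideal.absNorm P ∣ l ^ Module.finrank ℤ (𝓞 K) := by
      have h := Ideal.absNorm_dvd_absNorm_of_le ((Ideal.span_singleton_le_iff_mem _).mpr hmem)
      rwa [Ideal.absNorm_span_singleton, show ((l : ℕ) : 𝓞 K) = algebraMap ℤ (𝓞 K) l by simp,
        Algebra.norm_algebraMap_of_basis (RingOfIntegers.basis K), ← Module.finrank_eq_card_basis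
          (RingOfIntegers.basis K), Int.natAbs_pow, Int.natAbs_natCast] at h
    rwa [← (Nat.prime_dvd_prime_iff_eq hq hl).mp (hq.dvd_of_dvd_pow (hqd.trans hd))]
  show (Ideal.absNorm P).Prime
  rw [Ideal.absNorm_apply, Submodule.cardQuot_apply]
  rw [Ideal.absNorm_apply, Submodule.cardQuot_apply] at hdvd
  have hpos : 0 < Nat.card (𝓞 K ⧸ P) :=
    @Nat.card_pos _ _ (Ideal.finiteQuotientOfFreeOfNeBot P (placeIn K A hl hA).ne_bot)
  rw [le_antisymm hle (Nat.le_of_dvd hpos hdvd)]
  exact hl

variable (K)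

/-- Outside a finite set of primes a Frobenius element at a degree one place fixes `K`. -/
theorem exists_bad_isDegreeOne : ∃ S : Finset ℕ, ∀ (A : ValuationSubring Qb) (l : ℕ)
    (hl : l.Prime) (hA : A.LiesOverPrime l), l ∉ S → IsDegreeOne (placeIn K A hl hA) →
      ∀ φ : Γ, A.IsFrobeniusAt φ l → φ ∈ K.fixingSubgroup := by
  classical
  let b := RingOfIntegers.basis K
  let δ : Module.Free.ChooseBasisIndex ℤ (𝓞 K) → 𝓞 K :=
    fun i => aeval (b i) (derivative (minpoly ℤ (b i)))
  have hδ : ∀ i, δ i ≠ 0 := by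
    intro i hi
    have hint : IsIntegral ℤ ((b i : 𝓞 K) : K) := RingOfIntegers.isIntegral_coe (b i)
    have hsep : (minpoly ℚ ((b i : 𝓞 K) : K)).Separable := Algebra.IsSeparable.isSeparable ℚ _
    have h := hsep.aeval_derivative_ne_zero (minpoly.aeval ℚ ((b i : 𝓞 K) : K))
    refine h ?_
    rw [minpoly.isIntegrallyClosed_eq_field_fractions' ℚ hint, derivative_map,
      aeval_map_algebraMap]
    have h2 : minpoly ℤ ((b i : 𝓞 K) : K) = minpoly ℤ (b i) :=
      minpoly.algebraMap_eq RingOfIntegers.coe_injective (b i)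
    rw [h2, aeval_algebraMap_apply]
    simp only [δ] at hi
    rw [hi, map_zero]
  refine ⟨Finset.univ.biUnion fun i => (Ideal.absNorm (Ideal.span {δ i})).primeFactors,
    fun A l hl hA hlS hdeg φ hφ => ?_⟩
  have hgen : ∀ i, φ • toZbar K (b i) = toZbar K (b i) := by
    intro i
    by_contra hne
    refine hlS (Finset.mem_biUnion.mpr ⟨i, Finset.mem_univ i, ?_⟩)
    set x := toZbar K (b i) with hx
    have hroot : aeval (φ • x) (minpoly ℤ (b i)) = 0 := by
      have h0 : aeval x (minpoly ℤ (b i)) = 0 := by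
        show aeval ((toZbar K).toIntAlgHom (b i)) _ = _
        rw [aeval_algHom_apply, minpoly.aeval, map_zero]
      have := aeval_algHom_apply ((MulSemiringAction.toRingHom Γ Zbar φ).toIntAlgHom) x
        (minpoly ℤ (b i))
      rw [h0, map_zero] at this
      exact this
    set f := (minpoly ℤ (b i)).map (algebraMap ℤ Zbar) with hf
    obtain ⟨g, hg⟩ : X - C x ∣ f := by
      rw [dvd_iff_isRoot, IsRoot.def, hf, eval_map, ← aeval_def]
      show aeval ((toZbar K).toIntAlgHom (b i)) _ = _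
      rw [aeval_algHom_apply, minpoly.aeval, map_zero]
    have hgy : g.eval (φ • x) = 0 := by
      have h := congrArg (Polynomial.eval (φ • x)) hg
      rw [hf, eval_map, ← aeval_def, hroot, eval_mul, eval_sub, eval_X, eval_C, eq_comm,
        mul_eq_zero] at h
      exact h.resolve_left (sub_ne_zero.mpr hne)
    have hderiv : toZbar K (δ i) = g.eval x := by
      have h := congrArg (fun p : Zbar[X] => (derivative p).eval x) hg
      simp only [derivative_mul, derivative_sub, derivative_X, derivative_C, sub_zero, eval_add,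
        eval_mul, eval_sub, eval_X, eval_C, sub_self, zero_mul, add_zero, one_mul] at h
      rw [← h, hf, derivative_map, eval_map, ← aeval_def]
      exact (aeval_algHom_apply (toZbar K).toIntAlgHom (b i) _).symm
    have hmem : φ • x - x ∈ centre A := by
      have h1 := (isFrobeniusAt_iff_centre hl.pos).mp hφ x
      have h2 : x ^ l - x ∈ centre A := by
        have := pow_sub_mem_of_isDegreeOne hdeg (b i)
        rw [hx, ← map_pow, ← map_sub]
        exact this
      have := add_mem h1 h2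
      rwa [sub_add_sub_cancel] at this
    have hgx : g.eval x ∈ centre A := by
      obtain ⟨c, hc⟩ := sub_dvd_eval_sub (φ • x) x g
      rw [hgy, zero_sub] at hc
      rw [← neg_mem_iff, hc]
      exact Ideal.mul_mem_right _ _ hmem
    rw [← hderiv] at hgx
    have hP : Ideal.span {δ i} ≤ (placeIn K A hl hA).asIdeal :=
      (Ideal.span_singleton_le_iff_mem _).mpr hgx
    rw [Nat.mem_primeFactors]
    refine ⟨hl, ?_, mt Ideal.absNorm_eq_zero_iff.mp (mt Ideal.span_singleton_eq_bot.mp (hδ i))⟩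
    have h := Ideal.absNorm_dvd_absNorm_of_le hP
    rwa [absNorm_eq_of_isDegreeOne hdeg] at h
  have hfun : ((MulSemiringAction.toRingHom Γ Zbar φ).comp (toZbar K)).toAddMonoidHom.toIntLinearMap
      = (toZbar K).toAddMonoidHom.toIntLinearMap := b.ext hgen
  rw [IntermediateField.mem_fixingSubgroup_iff]
  intro y hy
  obtain ⟨n, d, hd, hnd⟩ := IsFractionRing.div_surjective (A := 𝓞 K) (⟨y, hy⟩ : K)
  have hval : ∀ z : 𝓞 K, φ ((z : K) : Qb) = ((z : K) : Qb) := fun z =>
    congrArg Subtype.val (LinearMap.congr_fun hfun z :)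
  have hy' : y = ((n : K) : Qb) / ((d : K) : Qb) := by
    have := congrArg (fun u : K => (u : Qb)) hnd
    simpa using this.symm
  show φ y = y
  rw [hy', map_div₀, hval, hval]

end NormChar

/-- A ray character vanishing at almost all degree one primes, in Galois form. -/
theorem RayHom.eq_zero_of_frobenius {p : ℕ} [Fact p.Prime]
    {K : IntermediateField ℚ Qb} [FiniteDimensional ℚ K]
    {V : Type} [AddCommGroup V] [Module (ZMod p) V] {m : Ideal (𝓞 K)} (hm : m ≠ ⊥)
    (χ : RayHom m V) (bad : Finset ℕ)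
    (hvan : ∀ (A : ValuationSubring Qb) (l : ℕ) (hl : l.Prime) (hA : A.LiesOverPrime l),
      l ∉ bad → ∀ φ ∈ K.fixingSubgroup, A.IsFrobeniusAt φ l →
        χ.toFun (placeIn K A hl hA).asIdeal = 0) :
    ∀ I, χ.toFun I = 0 := by
  obtain ⟨S, hS⟩ := NormChar.exists_bad_isDegreeOne K
  refine RayHom.eq_zero_of_degreeOne (p := p) hm χ _
    (NormChar.finite_places_above K (bad ∪ S)) fun P hP hdeg => ?_
  obtain ⟨l, hl, hlP⟩ := exists_prime_mem P
  obtain ⟨A, hA, rfl⟩ := exists_placeIn K P hl hlP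
  have hl' : l ∉ bad ∪ S := fun h => hP ⟨l, h, hl, hlP⟩
  rw [Finset.mem_union, not_or] at hl'
  obtain ⟨φ, hφ⟩ := exists_isFrobeniusAt hl hA
  exact hvan A l hl hA hl'.1 φ (hS A l hl hA hl'.2 hdeg φ hφ) hφ

end FLTAgent.TW
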