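import Fermat.Agent.TW.NormChar.Relation
import Mathlib.GroupTheory.QuotientGroup.Basic

/-!
# A ray character vanishing at split primes is a homomorphism of the Galois group
-/

set_option autoImplicit false

open IsDedekindDomain NumberField
open scoped Pointwise

noncomputable section

namespace FLTAgent.TW

open FLTAgent.Frobenius

namespace NormChar

local instance : IsGalois ℚ Qb := qb_isGalois

variable {K F : IntermediateField ℚ Qb}

theorem normal_subgroupOf (hnormal : ∀ σ ∈ K.fixingSubgroup, ∀ x ∈ F, σ x ∈ F) :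
    (F.fixingSubgroup.subgroupOf K.fixingSubgroup).Normal := by
  refine ⟨fun n hn g => Subgroup.mem_subgroupOf.mpr ?_⟩
  rw [IntermediateField.mem_fixingSubgroup_iff]
  intro x hx
  have hx' := hnormal _ (inv_mem g.2) x hx
  rw [Subgroup.coe_mul, Subgroup.coe_mul, Subgroup.coe_inv, AlgEquiv.mul_apply,
    AlgEquiv.mul_apply, apply_eq_of_mem_fixing (Subgroup.mem_subgroupOf.mp hn) hx']
  exact (g : Γ).apply_symm_apply x

/-- The abelian quotient of exponent `p` cut out by `F`. -/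
theorem exists_levelHom {p : ℕ} (hnormal : ∀ σ ∈ K.fixingSubgroup, ∀ x ∈ F, σ x ∈ F)
    (hexp : ∀ σ ∈ K.fixingSubgroup, σ ^ p ∈ F.fixingSubgroup)
    (hcomm : ∀ σ ∈ K.fixingSubgroup, ∀ τ ∈ K.fixingSubgroup,
      σ * τ * σ⁻¹ * τ⁻¹ ∈ F.fixingSubgroup) :
    ∃ (G : Type) (_ : CommGroup G) (πF : K.fixingSubgroup →* G),
      (∀ g, πF g = 1 ↔ (g : Γ) ∈ F.fixingSubgroup) ∧ ∀ x : G, x ^ p = 1 := by
  have := normal_subgroupOf hnormal
  let Q := K.fixingSubgroup ⧸ F.fixingSubgroup.subgroupOf K.fixingSubgroup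
  let i : CommGroup Q :=
    { (inferInstance : Group Q) with
      mul_comm := fun x y => by
        obtain ⟨a, rfl⟩ := QuotientGroup.mk_surjective x
        obtain ⟨b, rfl⟩ := QuotientGroup.mk_surjective y
        rw [← QuotientGroup.mk_mul, ← QuotientGroup.mk_mul, QuotientGroup.eq,
          Subgroup.mem_subgroupOf]
        have h := hcomm _ (inv_mem b.2) _ (inv_mem a.2)
        convert h using 1
        push_cast
        group }
  refine ⟨Q, i, QuotientGroup.mk' _, fun g => ?_, fun x => ?_⟩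
  · rw [← MonoidHom.mem_ker, QuotientGroup.ker_mk', Subgroup.mem_subgroupOf]
  · obtain ⟨a, rfl⟩ := QuotientGroup.mk_surjective x
    show ((a : Q)) ^ p = 1
    rw [← QuotientGroup.mk_pow, QuotientGroup.eq_one_iff, Subgroup.mem_subgroupOf,
      Subgroup.coe_pow]
    exact hexp _ a.2

/-- A fresh place in a given class. -/
theorem exists_place [FiniteDimensional ℚ F] (hKF : K ≤ F) (σ : K.fixingSubgroup)
    (S : Finset ℕ) :
    ∃ (l : ℕ) (_ : l.Prime) (A : ValuationSubring Qb) (_ : A.LiesOverPrime l)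
      (φ : K.fixingSubgroup), l ∉ S ∧ A.IsFrobeniusAt (φ : Γ) l ∧
        ((σ⁻¹ * φ : K.fixingSubgroup) : Γ) ∈ F.fixingSubgroup := by
  obtain ⟨l, hl, hlS, A, hA, -, θ, hθ, hθσ⟩ :=
    FLTAgent.Chebotarev.exists_frobenius_eqOn F (σ : Γ) S
  have hmem : (σ : Γ)⁻¹ * θ ∈ F.fixingSubgroup := by
    rw [IntermediateField.mem_fixingSubgroup_iff]
    intro y hy
    rw [AlgEquiv.mul_apply, hθσ y hy]
    exact (σ : Γ).symm_apply_apply y
  have hθK : θ ∈ K.fixingSubgroup := by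
    have := mul_mem σ.2 (IntermediateField.fixingSubgroup_antitone hKF hmem)
    rwa [mul_inv_cancel_left] at this
  exact ⟨l, hl, A, hA, ⟨θ, hθK⟩, hlS, hθ, hmem⟩

end NormChar

open NormChar in
/-- A ray character vanishing at primes split in an exponent `p` abelian extension `F/K` is a
homomorphism of the Galois group evaluated at Frobenius. -/
theorem RayHom.exists_hom_of_vanish {p : ℕ} [Fact p.Prime] (hp : p ≠ 2)
    {K F : IntermediateField ℚ Qb} [FiniteDimensional ℚ K] [FiniteDimensional ℚ F] (hKF : K ≤ F)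
    (hnormal : ∀ σ ∈ K.fixingSubgroup, ∀ x ∈ F, σ x ∈ F)
    (hexp : ∀ σ ∈ K.fixingSubgroup, σ ^ p ∈ F.fixingSubgroup)
    (hcomm : ∀ σ ∈ K.fixingSubgroup, ∀ τ ∈ K.fixingSubgroup,
      σ * τ * σ⁻¹ * τ⁻¹ ∈ F.fixingSubgroup)
    {V : Type} [AddCommGroup V] [Module (ZMod p) V] {m : Ideal (𝓞 K)} (hm : m ≠ ⊥)
    (χ : RayHom m V) (bad : Finset ℕ)
    (hvan : ∀ (A : ValuationSubring Qb) (l : ℕ) (hl : l.Prime) (hA : A.LiesOverPrime l),
      l ∉ bad → ∀ φ ∈ F.fixingSubgroup, A.IsFrobeniusAt φ l →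
        χ.toFun (placeIn K A hl hA).asIdeal = 0) :
    ∃ (h : K.fixingSubgroup → V) (bad' : Finset ℕ),
      (∀ σ τ, h (σ * τ) = h σ + h τ) ∧
      (∀ σ : K.fixingSubgroup, (σ : Γ) ∈ F.fixingSubgroup → h σ = 0) ∧
      ∀ (A : ValuationSubring Qb) (l : ℕ) (hl : l.Prime) (hA : A.LiesOverPrime l),
        l ∉ bad' → ∀ φ : K.fixingSubgroup, A.IsFrobeniusAt (φ : Γ) l →
          χ.toFun (placeIn K A hl hA).asIdeal = h φ := by
  classical
  obtain ⟨G, _, πF, hker, hG⟩ := exists_levelHom hnormal hexp hcomm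
  have hp' : p.Prime := Fact.out
  set S := (Ideal.absNorm m).primeFactors
  have hgood : ∀ {l : ℕ}, l.Prime → l ∉ S → ¬ l ∣ Ideal.absNorm m := fun hl hlS h =>
    hlS (Nat.mem_primeFactors.mpr ⟨hl, h, mt Ideal.absNorm_eq_zero_iff.mp hm⟩)
  have hclass : ∀ {σ φ : K.fixingSubgroup},
      ((σ⁻¹ * φ : K.fixingSubgroup) : Γ) ∈ F.fixingSubgroup → πF φ = πF σ := by
    intro σ φ h
    have h' := (hker _).mpr h
    rw [_root_.map_mul, _root_.map_inv, inv_mul_eq_one] at h'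
    exact h'.symm
  have hneg : ∀ v w : V, v + (p - 1) • w = 0 → v = w := by
    intro v w h
    have hpw : (p - 1) • w + w = 0 := by
      rw [← succ_nsmul, Nat.sub_add_cancel hp'.one_le]
      exact ZModModule.char_nsmul_eq_zero p w
    rw [eq_neg_of_add_eq_zero_left hpw] at h
    exact add_neg_eq_zero.mp h
  have hcancel : ∀ x y : G, x = y → x * y ^ (p - 1) = 1 := by
    rintro x _ rfl
    rw [← pow_succ', Nat.sub_add_cancel hp'.one_le, hG]
  -- two places in one class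
  have two : ∀ (A B : ValuationSubring Qb) (l k : ℕ) (hl : l.Prime) (hk : k.Prime)
      (hA : A.LiesOverPrime l) (hB : B.LiesOverPrime k) (φ θ : K.fixingSubgroup),
      l ≠ k → l ∉ S → k ∉ S → A.IsFrobeniusAt (φ : Γ) l → B.IsFrobeniusAt (θ : Γ) k →
      πF φ = πF θ →
      χ.toFun (placeIn K A hl hA).asIdeal = χ.toFun (placeIn K B hk hB).asIdeal := by
    intro A B l k hl hk hA hB φ θ hne hlS hkS hφ hθ heq
    have h := relation hp hKF πF hker hG hm χ bad hvan ![A, B] ![l, k]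
      (Fin.forall_fin_two.mpr ⟨hl, hk⟩) (Fin.forall_fin_two.mpr ⟨hA, hB⟩)
      (by intro i j; fin_cases i <;> fin_cases j <;> simp [hne, hne.symm])
      (Fin.forall_fin_two.mpr ⟨hgood hl hlS, hgood hk hkS⟩) ![φ, θ]
      (Fin.forall_fin_two.mpr ⟨hφ, hθ⟩) ![1, p - 1] (by simpa using hcancel _ _ heq)
    simp only [Fin.sum_univ_two, Matrix.cons_val_zero, Matrix.cons_val_one, one_nsmul] at h
    exact hneg _ _ h
  choose lC hlC AC hAC φC hCS hCfrob hCclass using fun σ : K.fixingSubgroup =>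
    exists_place hKF σ S
  let h : K.fixingSubgroup → V := fun σ => χ.toFun (placeIn K (AC σ) (hlC σ) (hAC σ)).asIdeal
  have spec : ∀ (A : ValuationSubring Qb) (l : ℕ) (hl : l.Prime) (hA : A.LiesOverPrime l)
      (φ σ : K.fixingSubgroup), l ∉ S → A.IsFrobeniusAt (φ : Γ) l → πF φ = πF σ →
      χ.toFun (placeIn K A hl hA).asIdeal = h σ := by
    intro A l hl hA φ σ hlS hφ heq
    obtain ⟨k, hk, B, hB, θ, hkS, hθ, hθclass⟩ := exists_place hKF σ (insert l (insert (lC σ) S))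
    simp only [Finset.mem_insert, not_or] at hkS
    exact (two A B l k hl hk hA hB φ θ (Ne.symm hkS.1) hlS hkS.2.2 hφ hθ
        (heq.trans (hclass hθclass).symm)).trans
      (two B (AC σ) k (lC σ) hk (hlC σ) hB (hAC σ) θ (φC σ) hkS.2.1 hkS.2.2 (hCS σ) hθ (hCfrob σ)
        ((hclass hθclass).trans (hclass (hCclass σ)).symm))
  refine ⟨h, S, fun σ τ => ?_, fun σ hσ => ?_, fun A l hl hA hlS φ hφ =>
    spec A l hl hA φ φ hlS hφ rfl⟩
  · obtain ⟨l₁, hl₁, A₁, hA₁, φ₁, hS₁, hφ₁, hc₁⟩ := exists_place hKF σ S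
    obtain ⟨l₂, hl₂, A₂, hA₂, φ₂, hS₂, hφ₂, hc₂⟩ := exists_place hKF τ (insert l₁ S)
    obtain ⟨l₃, hl₃, A₃, hA₃, φ₃, hS₃, hφ₃, hc₃⟩ :=
      exists_place hKF (σ * τ) (insert l₁ (insert l₂ S))
    simp only [Finset.mem_insert, not_or] at hS₂ hS₃
    have hr := relation hp hKF πF hker hG hm χ bad hvan ![A₁, A₂, A₃] ![l₁, l₂, l₃]
      (by intro i; fin_cases i; exacts [hl₁, hl₂, hl₃])
      (by intro i; fin_cases i; exacts [hA₁, hA₂, hA₃])
      (by
        intro i j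
        fin_cases i <;> fin_cases j <;>
          simp [hS₂.1, hS₃.1, hS₃.2.1, Ne.symm hS₂.1, Ne.symm hS₃.1, Ne.symm hS₃.2.1])
      (by intro i; fin_cases i; exacts [hgood hl₁ hS₁, hgood hl₂ hS₂.2, hgood hl₃ hS₃.2.2])
      ![φ₁, φ₂, φ₃] (by intro i; fin_cases i; exacts [hφ₁, hφ₂, hφ₃]) ![1, 1, p - 1]
      (by
        simp only [Fin.prod_univ_three, Matrix.cons_val_zero, Matrix.cons_val_one,
          Matrix.cons_val_two, Matrix.head_cons, Matrix.tail_cons, pow_one]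
        exact hcancel _ _ (by rw [hclass hc₁, hclass hc₂, hclass hc₃, _root_.map_mul]))
    simp only [Fin.sum_univ_three, Matrix.cons_val_zero, Matrix.cons_val_one, Matrix.cons_val_two,
      Matrix.head_cons, Matrix.tail_cons, one_nsmul] at hr
    have h123 := hneg _ _ hr
    calc h (σ * τ) = χ.toFun (placeIn K A₃ hl₃ hA₃).asIdeal :=
          (spec A₃ l₃ hl₃ hA₃ φ₃ _ hS₃.2.2 hφ₃ (hclass hc₃)).symm
      _ = χ.toFun (placeIn K A₁ hl₁ hA₁).asIdeal + χ.toFun (placeIn K A₂ hl₂ hA₂).asIdeal :=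
          h123.symm
      _ = h σ + h τ := by
          rw [spec A₁ l₁ hl₁ hA₁ φ₁ σ hS₁ hφ₁ (hclass hc₁),
            spec A₂ l₂ hl₂ hA₂ φ₂ τ hS₂.2 hφ₂ (hclass hc₂)]
  · have hr := relation hp hKF πF hker hG hm χ bad hvan ![AC σ] ![lC σ]
      (Fin.forall_fin_one.mpr (hlC σ)) (Fin.forall_fin_one.mpr (hAC σ))
      (fun i j _ => Subsingleton.elim i j) (Fin.forall_fin_one.mpr (hgood (hlC σ) (hCS σ)))
      ![φC σ] (Fin.forall_fin_one.mpr (hCfrob σ)) ![1]
      (by simpa [hclass (hCclass σ)] using (hker σ).mpr hσ)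
    simpa using hr

end FLTAgent.TW
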