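import Fermat.Agent.TW.Field
import Fermat.Agent.Chebotarev.Main
import Fermat.Agent.Frobenius.Unramified
import Fermat.Prelude.Def_GaloisRep_Residual
import Mathlib.RingTheory.RootsOfUnity.AlgebraicallyClosed
import Mathlib.FieldTheory.KummerPolynomial
import Mathlib.GroupTheory.SpecificGroups.Cyclic

/-!
# A cyclotomic character of exponent `p` separating given primes
-/

set_option autoImplicit false

open NumberField Polynomial
open scoped Pointwise

noncomputable section

namespace FLTAgent.TW.NormChar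

open FLTAgent.Frobenius

local instance : IsGalois ℚ Qb := qb_isGalois

variable {A : ValuationSubring Qb}

/-- A root of unity of order prime to the residue characteristic congruent to `1` is `1`. -/
theorem eq_one_of_sub_one_mem {m : ℕ} {z : Zbar} (hz : z ^ m = 1) (h1 : z - 1 ∈ centre A)
    (hm : (m : Zbar) ∉ centre A) : z = 1 := by
  by_contra hne
  have hsum : ∑ i ∈ Finset.range m, z ^ i = 0 := by
    have := geom_sum_mul z m
    rw [hz, sub_self, mul_eq_zero] at this
    exact this.resolve_right (sub_ne_zero.mpr hne)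
  refine hm ?_
  have : ∑ i ∈ Finset.range m, (z ^ i - 1) ∈ centre A := Ideal.sum_mem _ fun i _ => by
    obtain ⟨c, hc⟩ := sub_one_dvd_pow_sub_one z i
    rw [hc]
    exact Ideal.mul_mem_right _ _ h1
  simp only [Finset.sum_sub_distrib, hsum, Finset.sum_const, Finset.card_range, nsmul_eq_mul,
    mul_one, zero_sub, neg_mem_iff] at this
  exact this

theorem natCast_notMem_centre {l m : ℕ} (hl : l.Prime) (hA : A.LiesOverPrime l) (hm : ¬ l ∣ m) :
    (m : Zbar) ∉ centre A := fun h => hm (by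
  have h' : ((m : ℤ) : Qb) ∈ A.nonunits := by simpa using h
  exact Int.natCast_dvd_natCast.mp ((intCast_mem_nonunits_iff hl hA _).mp h'))

/-- An algebraic integer with given value. -/
def rootZbar {m : ℕ} (hm : 0 < m) {ζ : Qb} (h : IsIntegral ℤ (ζ ^ m)) : Zbar :=
  ⟨ζ, h.of_pow hm⟩

theorem isIntegral_pow_of_eq_natCast {m n : ℕ} {ζ : Qb} (h : ζ ^ m = n) :
    IsIntegral ℤ (ζ ^ m) := by
  rw [h, ← map_natCast (algebraMap ℤ Qb)]
  exact isIntegral_algebraMap

/-- A Frobenius element acts on roots of unity of order prime to `l` as the `l`-th power. -/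
theorem frobenius_root {l m : ℕ} (hl : l.Prime) (hA : A.LiesOverPrime l) {φ : Γ}
    (hφ : A.IsFrobeniusAt φ l) (hm0 : 0 < m) (hm : ¬ l ∣ m) {ζ : Qb} (hζ : ζ ^ m = 1) :
    φ ζ = ζ ^ l := by
  set x : Zbar := rootZbar hm0 (isIntegral_pow_of_eq_natCast (n := 1) (by simpa using hζ))
  have hx : x ^ m = 1 := Subtype.ext (by simpa [x, rootZbar] using hζ)
  have hy : (φ • x) ^ m = 1 := by rw [← smul_pow', hx, smul_one]
  have hxl : (x ^ l) ^ m = 1 := by rw [← pow_mul, mul_comm, pow_mul, hx, one_pow]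
  have hinv : x ^ l * (x ^ l) ^ (m - 1) = 1 := by
    rw [← pow_succ', Nat.sub_add_cancel hm0, hxl]
  have h := eq_one_of_sub_one_mem (A := A) (z := φ • x * (x ^ l) ^ (m - 1)) (m := m)
    (by rw [mul_pow, hy, one_mul, ← pow_mul, mul_comm, pow_mul, hxl, one_pow])
    (by
      rw [show φ • x * (x ^ l) ^ (m - 1) - 1 = (φ • x - x ^ l) * (x ^ l) ^ (m - 1) by
        rw [sub_mul, hinv]]
      exact Ideal.mul_mem_right _ _ ((isFrobeniusAt_iff_centre hl.pos).mp hφ x))
    (natCast_notMem_centre hl hA hm)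
  have h2 : φ • x = x ^ l := by
    calc φ • x = φ • x * (x ^ l * (x ^ l) ^ (m - 1)) := by rw [hinv, mul_one]
      _ = x ^ l * (φ • x * (x ^ l) ^ (m - 1)) := by ring
      _ = x ^ l := by rw [h, mul_one]
  exact congrArg Subtype.val h2

theorem finiteDimensional_adjoin_pair (x y : Qb) :
    FiniteDimensional ℚ (IntermediateField.adjoin ℚ {x, y} : IntermediateField ℚ Qb) :=
  have : Finite ({x, y} : Set Qb) := (Set.toFinite {x, y}).to_subtype
  IntermediateField.finiteDimensional_adjoin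
    fun z _ => ((qb_isAlgebraic).isAlgebraic z).isIntegral

variable {p : ℕ} [Fact p.Prime]

/-- Primes at which a given non `p`-th power is not a `p`-th power residue. -/
theorem exists_kummer_prime (hp : p ≠ 2) {n : ℕ} (hn : ∀ b : ℕ, b ^ p ≠ n) (S : Finset ℕ) :
    ∃ q : ℕ, q.Prime ∧ q ∉ S ∧ p ∣ q - 1 ∧ ¬ q ∣ n ∧ (n : ZMod q) ^ ((q - 1) / p) ≠ 1 := by
  classical
  have hp' : p.Prime := Fact.out
  have hn0 : n ≠ 0 := fun h => hn 0 (by rw [h, zero_pow hp'.ne_zero])
  have : NeZero p := ⟨hp'.ne_zero⟩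
  obtain ⟨ζ, hζ⟩ := HasEnoughRootsOfUnity.exists_primitiveRoot Qb p
  obtain ⟨α, hα⟩ := IsAlgClosed.exists_pow_nat_eq ((n : ℕ) : Qb) hp'.pos
  have hirr : Irreducible (X ^ p - C (n : ℚ)) := by
    refine X_pow_sub_C_irreducible_of_prime hp' fun b hb => ?_
    have hint : IsIntegral ℤ b := by
      refine IsIntegral.of_pow hp'.pos ?_
      rw [hb, ← map_natCast (algebraMap ℤ ℚ)]
      exact isIntegral_algebraMap
    obtain ⟨k, rfl⟩ := IsIntegrallyClosed.isIntegral_iff.mp hint
    simp only [algebraMap_int_eq, eq_intCast] at hb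
    have hk : k ^ p = n := by exact_mod_cast hb
    have hk0 : 0 ≤ k := (hp'.odd_of_ne_two hp).pow_nonneg_iff.mp (hk ▸ Int.natCast_nonneg n)
    lift k to ℕ using hk0
    exact hn k (by exact_mod_cast hk)
  have hmα : minpoly ℚ α = X ^ p - C (n : ℚ) :=
    (minpoly.eq_of_irreducible_of_monic hirr (by simp [hα])
      (monic_X_pow_sub_C _ hp'.ne_zero)).symm
  obtain ⟨σ, hσζ, hσα⟩ : ∃ σ : Γ, σ ζ = ζ ∧ σ α ≠ α := by
    by_contra hcon
    push Not at hcon
    have hζint : IsIntegral ℚ ζ := ((qb_isAlgebraic).isAlgebraic ζ).isIntegral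
    have hmem : α ∈ IntermediateField.adjoin ℚ {ζ} := mem_of_forall_fixed _ fun σ hσ =>
      hcon σ (apply_eq_of_mem_fixing hσ (IntermediateField.mem_adjoin_simple_self ℚ ζ))
    have : FiniteDimensional ℚ (IntermediateField.adjoin ℚ {ζ}) :=
      IntermediateField.adjoin.finiteDimensional hζint
    have hdvd := minpoly.degree_dvd (K := ℚ)
      (IsIntegral.of_finite ℚ (⟨α, hmem⟩ : IntermediateField.adjoin ℚ {ζ}))
    rw [← minpoly.algebraMap_eq (B' := Qb) (Subtype.val_injective :
        Function.Injective (algebraMap (IntermediateField.adjoin ℚ {ζ}) Qb))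
        (⟨α, hmem⟩ : IntermediateField.adjoin ℚ {ζ}),
      show algebraMap (IntermediateField.adjoin ℚ {ζ}) Qb ⟨α, hmem⟩ = α from rfl, hmα,
      natDegree_X_pow_sub_C, IntermediateField.adjoin.finrank hζint,
      ← Polynomial.cyclotomic_eq_minpoly_rat hζ hp'.pos, natDegree_cyclotomic,
      Nat.totient_prime hp'] at hdvd
    have := Nat.le_of_dvd (Nat.sub_pos_of_lt hp'.one_lt) hdvd
    have := hp'.two_le
    omega
  have := finiteDimensional_adjoin_pair ζ α
  obtain ⟨q, hq, hqS, A, hA, -, φ, hφ, hφσ⟩ :=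
    FLTAgent.Chebotarev.exists_frobenius_eqOn (IntermediateField.adjoin ℚ {ζ, α}) σ
      (S ∪ n.primeFactors ∪ {p})
  simp only [Finset.mem_union, Finset.mem_singleton, not_or] at hqS
  have hqn : ¬ q ∣ n := fun h => hqS.1.2 (Nat.mem_primeFactors.mpr ⟨hq, h, hn0⟩)
  have hqp : ¬ q ∣ p := fun h => hqS.2 ((Nat.prime_dvd_prime_iff_eq hq hp').mp h)
  have hφζ : φ ζ = ζ := by
    rw [hφσ ζ (IntermediateField.subset_adjoin ℚ _ (Set.mem_insert _ _)), hσζ]
  have hφα : φ α = σ α :=
    hφσ α (IntermediateField.subset_adjoin ℚ _ (Set.mem_insert_of_mem _ rfl))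
  have hdiv : p ∣ q - 1 := by
    have h := frobenius_root hq hA hφ hp'.pos hqp hζ.pow_eq_one
    rw [hφζ] at h
    refine hζ.dvd_of_pow_eq_one _ ?_
    have h2 : ζ ^ (q - 1) * ζ = 1 * ζ := by
      rw [← pow_succ, Nat.sub_add_cancel hq.one_le, one_mul, ← h]
    exact mul_right_cancel₀ (hζ.ne_zero hp'.ne_zero) h2
  refine ⟨q, hq, hqS.1.1, hdiv, hqn, fun hpow => hσα (hφα ▸ ?_)⟩
  set a : Zbar := rootZbar hp'.pos (isIntegral_pow_of_eq_natCast hα) with ha
  have hap : a ^ p = (n : Zbar) := Subtype.ext (by simpa [a, rootZbar] using hα)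
  have hα0 : α ≠ 0 := by
    rintro rfl
    rw [zero_pow hp'.ne_zero] at hα
    exact hn0 (Nat.cast_eq_zero.mp hα.symm)
  have hacentre : a ∉ centre A := fun h =>
    natCast_notMem_centre hq hA hqn (hap ▸ Ideal.pow_mem_of_mem _ h p hp'.pos)
  have haq : a ^ q - a ∈ centre A := by
    have hq1 : q - 1 = p * ((q - 1) / p) := (Nat.mul_div_cancel' hdiv).symm
    have h1 : ((n ^ ((q - 1) / p) : ℕ) : ℤ) - 1 ∈ Ideal.span {(q : ℤ)} := by
      rw [Ideal.mem_span_singleton, ← ZMod.intCast_zmod_eq_zero_iff_dvd]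
      push_cast
      rw [hpow, sub_self]
    obtain ⟨c, hc⟩ := Ideal.mem_span_singleton.mp h1
    have h2 : (n : Zbar) ^ ((q - 1) / p) - 1 ∈ centre A := by
      have h3 := congrArg (Int.cast : ℤ → Zbar) hc
      push_cast at h3
      rw [h3]
      exact Ideal.mul_mem_right _ _ (liesOverPrime_iff.mp hA)
    have h4 : a ^ q = a * (n : Zbar) ^ ((q - 1) / p) := by
      rw [← hap, ← pow_mul, ← hq1, ← pow_succ', Nat.sub_add_cancel hq.one_le]
    rw [h4, show a * (n : Zbar) ^ ((q - 1) / p) - a = a * ((n : Zbar) ^ ((q - 1) / p) - 1) by ring]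
    exact Ideal.mul_mem_left _ _ h2
  have hφa : φ • a - a ∈ centre A := by
    have := add_mem ((isFrobeniusAt_iff_centre hq.pos).mp hφ a) haq
    rwa [sub_add_sub_cancel] at this
  obtain ⟨i, hi, hiα⟩ := hζ.eq_pow_of_pow_eq_one (show (φ α / α) ^ p = 1 by
    rw [div_pow, ← map_pow, hα, map_natCast, div_self (Nat.cast_ne_zero.mpr hn0)])
  set z : Zbar := rootZbar hp'.pos
    (isIntegral_pow_of_eq_natCast (n := 1) (by simpa using hζ.pow_eq_one)) ^ i with hz
  have hzv : (z : Qb) = φ α / α := by simpa [z, rootZbar] using hiα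
  have hza : φ • a = z * a := Subtype.ext (by
    show φ α = (z : Qb) * α
    rw [hzv, div_mul_cancel₀ _ hα0])
  have hz1 : z = 1 := by
    refine eq_one_of_sub_one_mem (A := A) (m := p) (Subtype.ext ?_) ?_
      (natCast_notMem_centre hq hA hqp)
    · show (z : Qb) ^ p = 1
      rw [hzv, div_pow, ← map_pow, hα, map_natCast, div_self (Nat.cast_ne_zero.mpr hn0)]
    · rw [hza, show z * a - a = (z - 1) * a by ring] at hφa
      exact ((centre_isPrime A).mem_or_mem hφa).resolve_right hacentre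
  rw [hz1, one_mul] at hza
  exact congrArg Subtype.val hza

/-- A character of order `p` of `(ℤ/q)ˣ`. -/
theorem exists_dlog {q : ℕ} (hq : q.Prime) (hpq : p ∣ q - 1) :
    ∃ e : (ZMod q)ˣ →* Multiplicative (ZMod p),
      ∀ x, e x = 1 → x ^ ((q - 1) / p) = 1 := by
  have : Fact q.Prime := ⟨hq⟩
  let f := zmodCyclicMulEquiv (G := (ZMod q)ˣ) inferInstance
  have hN : Nat.card (ZMod q)ˣ = q - 1 := by
    rw [Nat.card_eq_fintype_card, ZMod.card_units]
  have hd : p ∣ Nat.card (ZMod q)ˣ := hN ▸ hpq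
  refine ⟨(ZMod.castHom hd (ZMod p)).toAddMonoidHom.toMultiplicative.comp f.symm.toMonoidHom,
    fun x hx => ?_⟩
  have : NeZero (Nat.card (ZMod q)ˣ) := ⟨Nat.card_pos.ne'⟩
  set a : ZMod (Nat.card (ZMod q)ˣ) := Multiplicative.toAdd (f.symm x) with ha
  have hx0 : ZMod.castHom hd (ZMod p) a = 0 := congrArg Multiplicative.toAdd hx
  rw [← ZMod.natCast_zmod_val a, map_natCast, ZMod.natCast_eq_zero_iff] at hx0
  obtain ⟨j, hj⟩ := hx0
  have key : ((q - 1) / p) • a = 0 := by
    rw [← ZMod.natCast_zmod_val a, nsmul_eq_mul, ← Nat.cast_mul, ZMod.natCast_eq_zero_iff, hj,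
      ← mul_assoc, Nat.div_mul_cancel hpq, hN]
    exact dvd_mul_right _ _
  apply f.symm.injective
  rw [map_pow, map_one]
  exact congrArg Multiplicative.ofAdd key

/-- A cyclotomic character of exponent `p` in which given primes have independent images. -/
theorem exists_cyclo (hp : p ≠ 2) {r : ℕ} (l : Fin r → ℕ) (hl : ∀ i, (l i).Prime)
    (hinj : Function.Injective l) :
    ∃ (M : ℕ) (c : ℕ → {a : Fin r → ZMod p // a ≠ 0} → ZMod p)
      (cG : Γ →* Multiplicative ({a : Fin r → ZMod p // a ≠ 0} → ZMod p)),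
      M ≠ 0 ∧ (∀ i, ¬ l i ∣ M) ∧
      (∀ x y, x.Coprime M → y.Coprime M → c (x * y) = c x + c y) ∧
      (∀ x : ℤ, (M : ℤ) ∣ x - 1 → c x.natAbs = 0) ∧
      LinearIndependent (ZMod p) (fun i => c (l i)) ∧
      (∃ C : IntermediateField ℚ Qb, FiniteDimensional ℚ C ∧ C.fixingSubgroup ≤ cG.ker) ∧
      ∀ (A : ValuationSubring Qb) (x : ℕ) (_ : x.Prime) (_ : A.LiesOverPrime x), x.Coprime M →
        ∀ φ : Γ, A.IsFrobeniusAt φ x → cG φ = Multiplicative.ofAdd (c x) := by
  classical
  have hp' : p.Prime := Fact.out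
  let num : (Fin r → ZMod p) → ℕ := fun a => ∏ i, l i ^ (a i).val
  have hq : ∀ a : {a : Fin r → ZMod p // a ≠ 0}, ∃ q : ℕ, q.Prime ∧
      q ∉ Finset.univ.image l ∧ p ∣ q - 1 ∧ ¬ q ∣ num a ∧
      (num a : ZMod q) ^ ((q - 1) / p) ≠ 1 := by
    refine fun a => exists_kummer_prime hp (fun b hb => a.2 (funext fun i => ?_)) _
    have hb0 : b ≠ 0 := by
      rintro rfl
      rw [zero_pow hp'.ne_zero] at hb
      exact Finset.prod_ne_zero_iff.mpr (fun i _ => pow_ne_zero _ (hl i).ne_zero) hb.symm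
    have h := congrArg (fun n => n.factorization (l i)) hb
    have h2 : (num a).factorization (l i) = (a.1 i).val := by
      rw [Nat.factorization_prod (fun j _ => pow_ne_zero _ (hl j).ne_zero),
        Finsupp.finsetSum_apply, Finset.sum_eq_single i]
      · simp [Nat.Prime.factorization_self (hl i)]
      · intro j _ hji
        simp [Nat.factorization_eq_zero_of_not_dvd (show ¬ l i ∣ l j from fun hd =>
          hji (hinj ((Nat.prime_dvd_prime_iff_eq (hl i) (hl j)).mp hd).symm))]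
      · simp
    rw [h2, Nat.factorization_pow, Finsupp.smul_apply, smul_eq_mul] at h
    have hlt := ZMod.val_lt (a.1 i)
    rcases Nat.eq_zero_or_pos (b.factorization (l i)) with h0 | h0
    · rw [h0, mul_zero, eq_comm, ZMod.val_eq_zero] at h
      exact h
    · exfalso
      rw [← h] at hlt
      nlinarith
  choose q hqp hql hqd hqn hqpow using hq
  choose e he using fun a => exists_dlog (hqp a) (hqd a)
  choose ζ hζ using fun a : {a : Fin r → ZMod p // a ≠ 0} =>
    haveI : NeZero (q a) := ⟨(hqp a).ne_zero⟩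
    HasEnoughRootsOfUnity.exists_primitiveRoot Qb (q a)
  let c : ℕ → {a : Fin r → ZMod p // a ≠ 0} → ZMod p := fun x a =>
    if h : x.Coprime (q a) then Multiplicative.toAdd (e a (ZMod.unitOfCoprime x h)) else 0
  let cG : Γ →* Multiplicative ({a : Fin r → ZMod p // a ≠ 0} → ZMod p) :=
    { toFun := fun σ => Multiplicative.ofAdd fun a =>
        haveI : NeZero (q a) := ⟨(hqp a).ne_zero⟩
        Multiplicative.toAdd (e a ((hζ a).autToPow ℚ σ))
      map_one' := congrArg Multiplicative.ofAdd (funext fun a => by simp)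
      map_mul' := fun σ τ => congrArg Multiplicative.ofAdd (funext fun a => by
        rw [map_mul, map_mul, toAdd_mul]
        rfl) }
  have hdvdM : ∀ a, q a ∣ ∏ b, q b := fun a => Finset.dvd_prod_of_mem q (Finset.mem_univ a)
  have hlq : ∀ i a, ¬ l i ∣ q a := fun i a hd => hql a (Finset.mem_image.mpr
    ⟨i, Finset.mem_univ i, (Nat.prime_dvd_prime_iff_eq (hl i) (hqp a)).mp hd⟩)
  refine ⟨∏ a, q a, c, cG, Finset.prod_ne_zero_iff.mpr fun a _ => (hqp a).ne_zero,
    fun i hd => ?_, fun x y hx hy => funext fun a => ?_, fun x hx => funext fun a => ?_,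
    ?_, ?_, fun A x hxp hA hx φ hφ => congrArg Multiplicative.ofAdd (funext fun a => ?_)⟩
  · obtain ⟨a, -, ha⟩ := ((hl i).prime.dvd_finsetProd_iff q).mp hd
    exact hlq i a ha
  · have h1 := hx.coprime_dvd_right (hdvdM a)
    have h2 := hy.coprime_dvd_right (hdvdM a)
    simp only [c, Pi.add_apply, dif_pos h1, dif_pos h2, dif_pos (h1.mul_left h2)]
    rw [← toAdd_mul, ← map_mul]
    congr 2
    ext
    simp
  · have hdiv : ((q a : ℕ) : ℤ) ∣ x - 1 := (Int.natCast_dvd_natCast.mpr (hdvdM a)).trans hx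
    have hx1 : (x : ZMod (q a)) = 1 := by
      have h := (ZMod.intCast_zmod_eq_zero_iff_dvd (x - 1) (q a)).mpr hdiv
      push_cast at h
      exact sub_eq_zero.mp h
    simp only [c, Pi.zero_apply]
    split_ifs with hc
    swap
    · rfl
    set u := ZMod.unitOfCoprime x.natAbs hc
    have hu : (u : ZMod (q a)) = 1 ∨ (u : ZMod (q a)) = -1 := by
      simp only [u, ZMod.coe_unitOfCoprime]
      rcases Int.natAbs_eq x with h | h
      · left
        rw [h] at hx1
        simpa using hx1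
      · right
        rw [h] at hx1
        rw [Int.cast_neg, Int.cast_natCast] at hx1
        exact neg_eq_iff_eq_neg.mp hx1
    have hsq : u ^ 2 = 1 := Units.ext (by rcases hu with h | h <;> simp [h])
    have h2 : (2 : ZMod p) * Multiplicative.toAdd (e a u) = 0 := by
      rw [two_mul, ← toAdd_mul, ← map_mul, ← sq, hsq, map_one, toAdd_one]
    refine (mul_eq_zero.mp h2).resolve_left fun h => hp ?_
    have h' : ((2 : ℕ) : ZMod p) = 0 := by exact_mod_cast h
    exact (Nat.prime_dvd_prime_iff_eq hp' Nat.prime_two).mp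
      ((ZMod.natCast_eq_zero_iff _ _).mp h')
  · rw [Fintype.linearIndependent_iff]
    intro g hg i
    by_contra hi
    let a : {a : Fin r → ZMod p // a ≠ 0} := ⟨g, fun h => hi (congrFun h i)⟩
    have hcop : ∀ j, (l j).Coprime (q a) := fun j => (hl j).coprime_iff_not_dvd.mpr (hlq j a)
    have h := congrFun hg a
    simp only [Finset.sum_apply, Pi.smul_apply, Pi.zero_apply, c, dif_pos (hcop _)] at h
    have hone : e a (∏ j, ZMod.unitOfCoprime (l j) (hcop j) ^ (g j).val) = 1 := by
      apply Multiplicative.toAdd.injective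
      rw [map_prod, toAdd_prod, toAdd_one]
      refine Eq.trans (Finset.sum_congr rfl fun j _ => ?_) h
      rw [map_pow, toAdd_pow, nsmul_eq_mul, ZMod.natCast_zmod_val, smul_eq_mul]
    have h2 := congrArg (Units.val) (he a _ hone)
    simp only [Units.val_pow_eq_pow_val, Units.coe_prod, ZMod.coe_unitOfCoprime,
      Units.val_one] at h2
    refine hqpow a (Eq.trans ?_ h2)
    simp [num, a]
  · refine ⟨IntermediateField.adjoin ℚ (Set.range ζ), ?_, fun σ hσ => ?_⟩
    · have : Finite (Set.range ζ) := (Set.finite_range ζ).to_subtype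
      exact IntermediateField.finiteDimensional_adjoin
        fun z _ => ((qb_isAlgebraic).isAlgebraic z).isIntegral
    · refine congrArg Multiplicative.ofAdd (funext fun a => ?_)
      have : NeZero (q a) := ⟨(hqp a).ne_zero⟩
      have : Fact (q a).Prime := ⟨hqp a⟩
      have hfix : σ (ζ a) = ζ a ^ 1 := by
        rw [pow_one]
        exact apply_eq_of_mem_fixing hσ (IntermediateField.subset_adjoin ℚ _ ⟨a, rfl⟩)
      rw [← (hζ a).autToPow_spec ℚ σ] at hfix
      have h1 : (hζ a).autToPow ℚ σ = 1 := Units.ext (ZMod.val_injective _ (by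
        rw [Units.val_one, ZMod.val_one]
        exact (hζ a).pow_inj (ZMod.val_lt _) (hqp a).one_lt hfix))
      rw [h1, map_one, toAdd_one]
      rfl
  · have : NeZero (q a) := ⟨(hqp a).ne_zero⟩
    have hc := hx.coprime_dvd_right (hdvdM a)
    simp only [c, dif_pos hc]
    congr 2
    have hpow := frobenius_root hxp hA hφ (hqp a).pos (hxp.coprime_iff_not_dvd.mp hc)
      (hζ a).pow_eq_one
    rw [← (hζ a).autToPow_spec ℚ φ, ← pow_mod_orderOf _ x, ← (hζ a).eq_orderOf] at hpow
    refine Units.ext (ZMod.val_injective _ ?_)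
    rw [ZMod.coe_unitOfCoprime, ZMod.val_natCast]
    exact (hζ a).pow_inj (ZMod.val_lt _) (Nat.mod_lt _ (hqp a).pos) hpow

end FLTAgent.TW.NormChar
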