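import Fermat.Agent.TW.LevelField
import Fermat.Agent.TW.RayL.Defs
import Mathlib.RingTheory.Ideal.Norm.RelNorm
import Mathlib.RingTheory.Norm.Transitivity
import Mathlib.FieldTheory.PrimitiveElement

/-!
# Pulling ray characters back along the ideal norm
-/

set_option autoImplicit false

open IsDedekindDomain NumberField

noncomputable section

namespace FLTAgent.TW.NormChar

local instance : IsGalois ℚ Qb := qb_isGalois

theorem prod_one_add_mul {ι R : Type} [CommRing R] (s : Finset ι) (n : R) (f : ι → R) :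
    ∃ z : R, ∏ i ∈ s, (1 + n * f i) = 1 + n * z := by
  classical
  induction s using Finset.induction_on with
  | empty => exact ⟨0, by simp⟩
  | @insert a s ha ih =>
    obtain ⟨z, hz⟩ := ih
    exact ⟨f a + z + n * f a * z, by rw [Finset.prod_insert ha, hz]; ring⟩

/-- Norms of elements congruent to `1` modulo an integer. -/
theorem norm_one_add_mul {k E : Type} [Field k] [Field E] [Algebra k E] [Algebra k Qb]
    [FiniteDimensional k E] [Algebra.IsSeparable k E] (n : ℕ) (y : E) (hy : IsIntegral ℤ y) :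
    ∃ z : Qb, IsIntegral ℤ z ∧ algebraMap k Qb (Algebra.norm k (1 + n * y)) = 1 + n * z := by
  obtain ⟨z, hz⟩ := prod_one_add_mul (Finset.univ : Finset (E →ₐ[k] Qb))
    (n : integralClosure ℤ Qb)
    fun σ => ⟨σ y, hy.map σ.toRingHom.toIntAlgHom⟩
  refine ⟨z, z.2, ?_⟩
  rw [Algebra.norm_eq_prod_embeddings]
  have h := congrArg (fun w : integralClosure ℤ Qb => (w : Qb)) hz
  push_cast at h
  rw [← h]
  exact Finset.prod_congr rfl fun σ _ => by rw [map_add, map_one, map_mul, map_natCast]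

theorem coprime_absNorm {K : Type} [Field K] [NumberField K] {I : Ideal (𝓞 K)} (hI : I ≠ ⊥)
    {n : ℕ} (h : IsCoprime I (Ideal.span {(n : 𝓞 K)})) : (Ideal.absNorm I).Coprime n := by
  have hfin : Finite (𝓞 K ⧸ I) := Ideal.finiteQuotientOfFreeOfNeBot I hI
  refine Nat.coprime_of_dvd fun q hq hqN hqn => ?_
  rw [Ideal.absNorm_apply, Submodule.cardQuot_apply] at hqN
  have : Fact q.Prime := ⟨hq⟩
  obtain ⟨y, hy⟩ := exists_prime_addOrderOf_dvd_card' q hqN
  obtain ⟨i, hi, j, hj, hij⟩ := Ideal.isCoprime_iff_exists.mp h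
  obtain ⟨t, rfl⟩ := Ideal.mem_span_singleton'.mp hj
  have h1 : Ideal.Quotient.mk I (t * n) = 1 := by
    rw [← map_one (Ideal.Quotient.mk I), Ideal.Quotient.eq, ← neg_mem_iff, neg_sub,
      show (1 : 𝓞 K) - t * n = i by rw [← hij]; ring]
    exact hi
  have hy0 : (q : 𝓞 K ⧸ I) * y = 0 := by
    rw [← nsmul_eq_mul, ← hy]
    exact addOrderOf_nsmul_eq_zero y
  obtain ⟨k, rfl⟩ := hqn
  have : y = 0 := by
    calc y = Ideal.Quotient.mk I (t * (q * k : ℕ)) * y := by rw [h1, one_mul]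
      _ = Ideal.Quotient.mk I t * (k : 𝓞 K ⧸ I) * ((q : 𝓞 K ⧸ I) * y) := by
        rw [map_mul, map_natCast]
        push_cast
        ring
      _ = 0 := by rw [hy0, mul_zero]
  rw [this, addOrderOf_zero] at hy
  exact hq.ne_one hy.symm

theorem isCoprime_of_coprime_absNorm {K : Type} [Field K] [NumberField K] {I J : Ideal (𝓞 K)}
    (h : (Ideal.absNorm I).Coprime (Ideal.absNorm J)) : IsCoprime I J := by
  obtain ⟨u, v, huv⟩ := Int.isCoprime_iff_nat_coprime.mpr
    (by simpa using h :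
      (Int.natAbs (Ideal.absNorm I : ℤ)).Coprime (Int.natAbs (Ideal.absNorm J : ℤ)))
  refine Ideal.isCoprime_iff_exists.mpr ⟨(u : 𝓞 K) * Ideal.absNorm I,
    Ideal.mul_mem_left _ _ (Ideal.absNorm_mem I), (v : 𝓞 K) * Ideal.absNorm J,
    Ideal.mul_mem_left _ _ (Ideal.absNorm_mem J), ?_⟩
  have := congrArg (fun z : ℤ => (z : 𝓞 K)) huv
  push_cast at this
  exact this

variable {p : ℕ} {K R : IntermediateField ℚ Qb}
  [FiniteDimensional ℚ K] [FiniteDimensional ℚ R] [Algebra K R] [IsInclusion K R]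

theorem intNorm_sub_one_mem {m : Ideal (𝓞 K)} {n : ℕ} (hn : (n : 𝓞 K) ∈ m) {x : 𝓞 R}
    (hx : x - 1 ∈ Ideal.span {(n : 𝓞 R)}) : Algebra.intNorm (𝓞 K) (𝓞 R) x - 1 ∈ m := by
  have := IsInclusion.scalarTower (K := K) (L := R)
  have : FiniteDimensional K R := FiniteDimensional.right ℚ K R
  obtain ⟨y, hy⟩ := Ideal.mem_span_singleton'.mp hx
  obtain ⟨z, hz, he⟩ := norm_one_add_mul (k := K) (E := R) n (y : R)
    (RingOfIntegers.isIntegral_coe y)
  have hxy : (x : R) = 1 + (n : R) * y := by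
    have h := congrArg (fun w : 𝓞 R => (w : R)) hy
    push_cast at h
    rw [mul_comm, h]
    ring
  rw [← hxy] at he
  set N := Algebra.intNorm (𝓞 K) (𝓞 R) x
  have hN : ((N : K) : Qb) = 1 + n * z := by
    rw [← he, ← Algebra.algebraMap_intNorm (A := 𝓞 K) (K := K) (B := 𝓞 R) (L := R) x]
    rfl
  rcases Nat.eq_zero_or_pos n with rfl | hn0
  · rw [Nat.cast_zero, zero_mul, add_zero] at hN
    have : N = 1 := RingOfIntegers.ext (Subtype.ext (by simpa using hN))
    rw [this, sub_self]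
    exact zero_mem m
  set w : K := ((N : K) - 1) / n
  have hw : (w : Qb) = z := by
    have hn' : (n : Qb) ≠ 0 := Nat.cast_ne_zero.mpr hn0.ne'
    simp only [w]
    push_cast
    rw [hN, add_sub_cancel_left, mul_div_cancel_left₀ _ hn']
  let w' : 𝓞 K := ⟨w, (isIntegral_algHom_iff (K.val.restrictScalars ℤ) Subtype.val_injective).mp
    (show IsIntegral ℤ ((w : K) : Qb) by rw [hw]; exact hz)⟩
  have hNw : N - 1 = w' * n := RingOfIntegers.ext (by
    push_cast
    show (N : K) - 1 = w * (n : K)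
    simp only [w]
    rw [div_mul_cancel₀ _ (Nat.cast_ne_zero.mpr hn0.ne')])
  rw [hNw]
  exact Ideal.mul_mem_left _ _ hn

omit [Algebra K R] [IsInclusion K R] in
theorem dvd_norm_int_sub_one {n : ℕ} {x : 𝓞 R} (hx : x - 1 ∈ Ideal.span {(n : 𝓞 R)}) :
    (n : ℤ) ∣ Algebra.norm ℤ x - 1 := by
  obtain ⟨y, hy⟩ := Ideal.mem_span_singleton'.mp hx
  obtain ⟨z, hz, he⟩ := norm_one_add_mul (k := ℚ) (E := R) n (y : R)
    (RingOfIntegers.isIntegral_coe y)
  have hxy : (x : R) = 1 + (n : R) * y := by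
    have h := congrArg (fun w : 𝓞 R => (w : R)) hy
    push_cast at h
    rw [mul_comm, h]
    ring
  rw [← hxy, ← Algebra.coe_norm_int] at he
  rcases Nat.eq_zero_or_pos n with rfl | hn0
  · rw [Nat.cast_zero, zero_mul, add_zero, map_intCast] at he
    rw [show Algebra.norm ℤ x = 1 by exact_mod_cast he, sub_self]
    exact dvd_zero _
  set w : ℚ := ((Algebra.norm ℤ x : ℚ) - 1) / n
  have hw : algebraMap ℚ Qb w = z := by
    simp only [w]
    rw [map_div₀, map_sub, map_one, he, map_natCast, add_sub_cancel_left,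
      mul_div_cancel_left₀ _ (Nat.cast_ne_zero.mpr hn0.ne')]
  have hwint : IsIntegral ℤ w :=
    (isIntegral_algHom_iff ((Algebra.ofId ℚ Qb).restrictScalars ℤ)
      (algebraMap ℚ Qb).injective).mp (show IsIntegral ℤ (algebraMap ℚ Qb w) by rw [hw]; exact hz)
  obtain ⟨k, hk⟩ := IsIntegrallyClosed.isIntegral_iff.mp hwint
  refine ⟨k, ?_⟩
  have hk' : (k : ℚ) = ((Algebra.norm ℤ x : ℚ) - 1) / n := by simpa using hk
  rw [eq_div_iff (Nat.cast_ne_zero.mpr hn0.ne'), mul_comm] at hk'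
  exact_mod_cast hk'.symm

variable {V V₀ : Type} [AddCommGroup V] [AddCommGroup V₀]
variable {m : Ideal (𝓞 K)}

open scoped Classical in
/-- The pair of a character composed with the norm and a function of the absolute norm. -/
def pullback (χ : RayHom m V) (M : ℕ) (c : ℕ → V₀)
    (hc : ∀ x y, x.Coprime M → y.Coprime M → c (x * y) = c x + c y)
    (hc1 : ∀ x : ℤ, (M : ℤ) ∣ x - 1 → c x.natAbs = 0) :
    RayHom (Ideal.span {((M * Ideal.absNorm m : ℕ) : 𝓞 R)}) (V × V₀) where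
  toFun I := if I ≠ ⊥ ∧ IsCoprime I (Ideal.span {((M * Ideal.absNorm m : ℕ) : 𝓞 R)}) then
    (χ.toFun (Ideal.relNorm (𝓞 K) I), c (Ideal.absNorm I)) else 0
  map_mul I J hI hJ hIc hJc := by
    have h : I * J ≠ ⊥ := mul_ne_zero hI hJ
    rw [if_pos ⟨h, hIc.mul_left hJc⟩, if_pos ⟨hI, hIc⟩, if_pos ⟨hJ, hJc⟩, Prod.mk_add_mk,
      map_mul, map_mul]
    have hI' := coprime_absNorm hI hIc
    have hJ' := coprime_absNorm hJ hJc
    refine Prod.ext ?_ ?_
    · refine χ.map_mul _ _ (mt Ideal.relNorm_eq_bot_iff.mp hI) (mt Ideal.relNorm_eq_bot_iff.mp hJ)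
        (isCoprime_of_coprime_absNorm ?_) (isCoprime_of_coprime_absNorm ?_)
      · rw [Ideal.absNorm_relNorm]; exact hI'.coprime_dvd_right (dvd_mul_left _ _)
      · rw [Ideal.absNorm_relNorm]; exact hJ'.coprime_dvd_right (dvd_mul_left _ _)
    · exact hc _ _ (hI'.coprime_dvd_right (dvd_mul_right _ _))
        (hJ'.coprime_dvd_right (dvd_mul_right _ _))
  map_ray x hx hxn := by
    have hne : Ideal.span {x} ≠ (⊥ : Ideal (𝓞 R)) := mt Ideal.span_singleton_eq_bot.mp hx
    rw [if_pos ⟨hne, Ideal.isCoprime_iff_exists.mpr ⟨x, Ideal.mem_span_singleton_self x, 1 - x,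
      neg_sub x 1 ▸ neg_mem hxn, add_sub_cancel _ _⟩⟩, Ideal.relNorm_singleton,
      Ideal.absNorm_span_singleton, Prod.mk_eq_zero]
    refine ⟨χ.map_ray _ (Algebra.intNorm_ne_zero.mpr hx) (intNorm_sub_one_mem ?_ hxn),
      hc1 _ ((Int.natCast_dvd_natCast.mpr (dvd_mul_right M _)).trans (dvd_norm_int_sub_one hxn))⟩
    rw [Nat.cast_mul]
    exact Ideal.mul_mem_left _ _ (Ideal.absNorm_mem m)
  eq_zero I hI := if_neg fun h => hI.elim h.1 (fun h' => h' h.2)

variable {χ : RayHom m V} {M : ℕ} {c : ℕ → V₀}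
  {hc : ∀ x y, x.Coprime M → y.Coprime M → c (x * y) = c x + c y}
  {hc1 : ∀ x : ℤ, (M : ℤ) ∣ x - 1 → c x.natAbs = 0}
  {A : ValuationSubring Qb} {l : ℕ} {hl : l.Prime} {hA : A.LiesOverPrime l}

/-- The value at a degree one place. -/
theorem pullback_placeIn (hdeg : Ideal.absNorm (placeIn R A hl hA).asIdeal = l)
    (hdegK : Ideal.absNorm (placeIn K A hl hA).asIdeal = l)
    (hlM : ¬ l ∣ M * Ideal.absNorm m) :
    (pullback (R := R) χ M c hc hc1).toFun (placeIn R A hl hA).asIdeal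
      = (χ.toFun (placeIn K A hl hA).asIdeal, c l) := by
  have hcop : IsCoprime (placeIn R A hl hA).asIdeal
      (Ideal.span {((M * Ideal.absNorm m : ℕ) : 𝓞 R)}) := by
    refine Ideal.isCoprime_iff_sup_eq.mpr
      ((((placeIn R A hl hA).isPrime.isMaximal (placeIn R A hl hA).ne_bot).out).2 _
        (lt_of_le_of_ne le_sup_left fun he => ?_))
    have hmem : ((M * Ideal.absNorm m : ℕ) : 𝓞 R) ∈ (placeIn R A hl hA).asIdeal :=
      he ▸ Ideal.mem_sup_right (Ideal.mem_span_singleton_self _)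
    have hn0 : M * Ideal.absNorm m ≠ 0 := fun h => hlM (h ▸ dvd_zero l)
    obtain ⟨q, hq, hqd, hqmem⟩ : ∃ q : ℕ, q.Prime ∧ q ∣ M * Ideal.absNorm m ∧
        (q : 𝓞 R) ∈ (placeIn R A hl hA).asIdeal := by
      generalize M * Ideal.absNorm m = n at hmem hn0
      induction n using Nat.recOnMul with
      | zero => exact absurd rfl hn0
      | one => exact ((placeIn R A hl hA).isPrime.ne_top
          ((Ideal.eq_top_iff_one _).mpr (by simpa using hmem))).elim
      | prime q hq => exact ⟨q, hq, dvd_rfl, hmem⟩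
      | mul a b iha ihb =>
        rw [Nat.cast_mul] at hmem
        rcases (placeIn R A hl hA).isPrime.mem_or_mem hmem with h | h
        · obtain ⟨q, hq, hd, hqm⟩ := iha h (left_ne_zero_of_mul hn0)
          exact ⟨q, hq, hd.mul_right b, hqm⟩
        · obtain ⟨q, hq, hd, hqm⟩ := ihb h (right_ne_zero_of_mul hn0)
          exact ⟨q, hq, hd.mul_left a, hqm⟩
    exact hlM (eq_of_natCast_mem hl hq _ natCast_mem_placeIn hqmem ▸ hqd)
  have hrel : Ideal.relNorm (𝓞 K) (placeIn R A hl hA).asIdeal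
      = (placeIn K A hl hA).asIdeal := by
    have hle : Ideal.relNorm (𝓞 K) (placeIn R A hl hA).asIdeal ≤ (placeIn K A hl hA).asIdeal :=
      (Ideal.relNorm_le_comap (𝓞 K) _).trans (le_of_eq
        (congrArg HeightOneSpectrum.asIdeal (below_placeIn (K := K) (L := R) (hl := hl) (hA := hA))))
    obtain ⟨J, hJ⟩ := Ideal.dvd_iff_le.mpr hle
    have h := congrArg Ideal.absNorm hJ
    rw [Ideal.absNorm_relNorm, map_mul, hdeg, hdegK] at h
    rw [hJ, Ideal.absNorm_eq_one_iff.mp (mul_left_cancel₀ hl.ne_zero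
      (h.symm.trans (mul_one l).symm)), Ideal.mul_top]
  classical
  refine (if_pos ?_).trans ?_
  · exact ⟨(placeIn R A hl hA).ne_bot, hcop⟩
  · rw [hrel, hdeg]

end FLTAgent.TW.NormChar
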