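import Fermat.Agent.TW.NormChar.DegreeOne
import Fermat.Agent.TW.NormChar.Cyclo
import Fermat.Agent.TW.NormChar.Norm
import Mathlib.FieldTheory.Galois.Infinite
import Mathlib.Algebra.Group.Subgroup.Finsupp

/-!
# A linear relation between Frobenius classes is satisfied by a ray character vanishing on split
primes
-/

set_option autoImplicit false

open IsDedekindDomain NumberField
open scoped Pointwise

noncomputable section

namespace FLTAgent.TW.NormChar

open FLTAgent.Frobenius

local instance : IsGalois ℚ Qb := qb_isGalois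

/-- The fixed field of an open subgroup, with its fixing subgroup. -/
theorem fixing_fixedField_of_open {C : IntermediateField ℚ Qb} [FiniteDimensional ℚ C]
    {H : Subgroup Γ} (hC : C.fixingSubgroup ≤ H) :
    (IntermediateField.fixedField H).fixingSubgroup = H ∧
      IntermediateField.fixedField H ≤ C := by
  have hopen : IsOpen (H : Set Γ) := Subgroup.isOpen_mono hC C.fixingSubgroup_isOpen
  exact ⟨InfiniteGalois.fixingSubgroup_fixedField ⟨H, H.isClosed_of_isOpen hopen⟩,
    fun x hx => mem_of_forall_fixed C fun σ hσ => hx ⟨σ, hC hσ⟩⟩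

theorem zpow_eq_zpow_of_cast_eq {p : ℕ} {G : Type} [Group G] {x : G} (hx : x ^ p = 1) {a b : ℤ}
    (h : (a : ZMod p) = b) : x ^ a = x ^ b := by
  obtain ⟨k, hk⟩ := (ZMod.intCast_eq_intCast_iff_dvd_sub a b p).mp h
  rw [show b = a + (p : ℤ) * k by omega, zpow_add, zpow_mul, zpow_natCast, hx, one_zpow, mul_one]

/-- The degree is bounded by the size of the group generated by `r` elements of exponent `p`. -/
theorem finrank_le_pow {p r : ℕ} [NeZero p] {G : Type} [CommGroup G] (hG : ∀ x : G, x ^ p = 1)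
    {K R L : IntermediateField ℚ Qb} [FiniteDimensional ℚ R] [FiniteDimensional ℚ L]
    [Algebra R L] [IsInclusion R L] (π : K.fixingSubgroup →* G) (b : Fin r → G)
    (hR : ∀ σ ∈ R.fixingSubgroup, ∃ g : K.fixingSubgroup, (g : Γ) = σ ∧
      π g ∈ Subgroup.closure (Set.range b))
    (hL : ∀ g : K.fixingSubgroup, π g = 1 → (g : Γ) ∈ L.fixingSubgroup) :
    Module.finrank R L ≤ p ^ r := by
  have := IsInclusion.scalarTower (K := R) (L := L)
  have : FiniteDimensional R L := FiniteDimensional.right ℚ R L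
  have key : ∀ e : L →ₐ[R] Qb, ∃ (g : K.fixingSubgroup) (a : Fin r → ℤ),
      (∀ x : L, e x = (g : Γ) x) ∧ π g = ∏ i, b i ^ a i := by
    intro e
    have : Normal ℚ Qb := IsGalois.to_normal
    let σ : Γ := AlgEquiv.ofBijective ((e.restrictScalars ℚ).liftNormal Qb)
      (AlgHom.normal_bijective ℚ Qb Qb _)
    have hσ : ∀ x : L, σ (x : Qb) = e x := fun x =>
      AlgHom.liftNormal_commutes (e.restrictScalars ℚ) Qb x
    obtain ⟨g, hg, hgT⟩ := hR σ ((IntermediateField.mem_fixingSubgroup_iff _ _).mpr fun x hx => by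
      have h := hσ (algebraMap R L ⟨x, hx⟩)
      rw [IsInclusion.coe_algebraMap, e.commutes] at h
      exact h)
    obtain ⟨a, ha⟩ := Subgroup.mem_closure_range_iff_of_fintype.mp hgT
    exact ⟨g, a, fun x => by rw [hg, hσ], ha⟩
  choose g a hg ha using key
  have hinj : Function.Injective fun e : L →ₐ[R] Qb => fun i => ((a e i : ℤ) : ZMod p) := by
    intro e e' h
    have heq : π (g e) = π (g e') := by
      rw [ha, ha]
      exact Finset.prod_congr rfl fun i _ => zpow_eq_zpow_of_cast_eq (hG _) (congrFun h i)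
    have hmem : (((g e)⁻¹ * g e' : K.fixingSubgroup) : Γ) ∈ L.fixingSubgroup :=
      hL _ (by rw [map_mul, map_inv, heq, inv_mul_cancel])
    refine AlgHom.ext fun x => ?_
    rw [hg, hg]
    have h2 := apply_coe_eq_of_mem_fixing hmem x
    rw [Subgroup.coe_mul, Subgroup.coe_inv, AlgEquiv.mul_apply] at h2
    have h3 := congrArg ((g e : Γ)) h2
    rw [← AlgEquiv.mul_apply, mul_inv_cancel, AlgEquiv.one_apply] at h3
    exact h3.symm
  have h := Fintype.card_le_of_injective _ hinj
  rwa [AlgHom.card, Fintype.card_fun, ZMod.card, Fintype.card_fin] at h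

variable {p : ℕ} [Fact p.Prime] {K F : IntermediateField ℚ Qb}
  [FiniteDimensional ℚ K] [FiniteDimensional ℚ F]
  {V : Type} [AddCommGroup V] [Module (ZMod p) V] {m : Ideal (𝓞 K)}

/-- A relation between Frobenius classes in `F/K` is satisfied by the values of `χ`. -/
theorem relation (hp : p ≠ 2) (hKF : K ≤ F) {G : Type} [CommGroup G]
    (πF : K.fixingSubgroup →* G) (hker : ∀ g, πF g = 1 ↔ (g : Γ) ∈ F.fixingSubgroup)
    (hG : ∀ x : G, x ^ p = 1) (hm : m ≠ ⊥) (χ : RayHom m V) (bad : Finset ℕ)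
    (hvan : ∀ (A : ValuationSubring Qb) (l : ℕ) (hl : l.Prime) (hA : A.LiesOverPrime l),
      l ∉ bad → ∀ φ ∈ F.fixingSubgroup, A.IsFrobeniusAt φ l →
        χ.toFun (placeIn K A hl hA).asIdeal = 0)
    {r : ℕ} (A : Fin r → ValuationSubring Qb) (l : Fin r → ℕ) (hl : ∀ i, (l i).Prime)
    (hA : ∀ i, (A i).LiesOverPrime (l i)) (hinj : Function.Injective l)
    (hgood : ∀ i, ¬ l i ∣ Ideal.absNorm m) (φ : Fin r → K.fixingSubgroup)
    (hφ : ∀ i, (A i).IsFrobeniusAt (φ i : Γ) (l i)) (a : Fin r → ℕ)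
    (hrel : ∏ i, πF (φ i) ^ a i = 1) :
    ∑ i, a i • χ.toFun (placeIn K (A i) (hl i) (hA i)).asIdeal = 0 := by
  classical
  have hp' : p.Prime := Fact.out
  have : NeZero p := ⟨hp'.ne_zero⟩
  obtain ⟨M, c, cG, hM0, hlM, hc, hc1, hind, ⟨C, hCfin, hC⟩, hcFrob⟩ :=
    exists_cyclo hp l hl hinj
  let π : K.fixingSubgroup →* G × Multiplicative ({a : Fin r → ZMod p // a ≠ 0} → ZMod p) :=
    πF.prod (cG.comp K.fixingSubgroup.subtype)
  have hπ : ∀ x : G × Multiplicative ({a : Fin r → ZMod p // a ≠ 0} → ZMod p), x ^ p = 1 :=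
    fun x => Prod.ext (hG _) (Multiplicative.toAdd.injective (by
      rw [Prod.pow_snd, toAdd_pow, Prod.snd_one, toAdd_one]
      exact ZModModule.char_nsmul_eq_zero p _))
  have hN : ∀ g : K.fixingSubgroup, π g = 1 ↔ (g : Γ) ∈ F.fixingSubgroup ∧ cG g = 1 :=
    fun g => Prod.ext_iff.trans (and_congr (hker g) Iff.rfl)
  set N : Subgroup Γ := π.ker.map K.fixingSubgroup.subtype
  set T : Subgroup (G × Multiplicative ({a : Fin r → ZMod p // a ≠ 0} → ZMod p)) :=
    Subgroup.closure (Set.range fun i => π (φ i))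
  set H : Subgroup Γ := (T.comap π).map K.fixingSubgroup.subtype
  have : FiniteDimensional ℚ (F ⊔ C : IntermediateField ℚ Qb) :=
    IntermediateField.finiteDimensional_sup _ _
  have hFC : (F ⊔ C).fixingSubgroup ≤ N := fun s hs => by
    have hsF := IntermediateField.fixingSubgroup_antitone le_sup_left hs
    have hsC := IntermediateField.fixingSubgroup_antitone le_sup_right hs
    exact ⟨⟨s, IntermediateField.fixingSubgroup_antitone hKF hsF⟩,
      (hN _).mpr ⟨hsF, hC hsC⟩, rfl⟩
  have hNH : N ≤ H := Subgroup.map_mono fun g hg => by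
    rw [Subgroup.mem_comap, hg]
    exact one_mem T
  obtain ⟨hRfix, hRle⟩ := fixing_fixedField_of_open (hFC.trans hNH)
  obtain ⟨hLfix, hLle⟩ := fixing_fixedField_of_open hFC
  set R := IntermediateField.fixedField H
  set L := IntermediateField.fixedField N
  have : FiniteDimensional ℚ R :=
    FiniteDimensional.of_injective (IntermediateField.inclusion hRle).toLinearMap
      (IntermediateField.inclusion hRle).toRingHom.injective
  have : FiniteDimensional ℚ L :=
    FiniteDimensional.of_injective (IntermediateField.inclusion hLle).toLinearMap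
      (IntermediateField.inclusion hLle).toRingHom.injective
  have hKR : K ≤ R := fun x hx => fun σ => by
    obtain ⟨g, -, hg⟩ := σ.2
    show (σ : Γ) x = x
    rw [← hg]
    exact apply_eq_of_mem_fixing g.2 hx
  have hRL : R ≤ L := fun x hx => fun σ => hx ⟨σ, hNH σ.2⟩
  have hFL : L.fixingSubgroup ≤ F.fixingSubgroup := fun s hs => by
    rw [hLfix] at hs
    obtain ⟨g, hg, rfl⟩ := hs
    exact ((hN g).mp hg).1
  let _ : Algebra K R := inclAlgebra hKR
  have : IsInclusion K R := isInclusion_inclAlgebra hKR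
  let _ : Algebra R L := inclAlgebra hRL
  have : IsInclusion R L := isInclusion_inclAlgebra hRL
  have hbound : Module.finrank R L ≤ p ^ r := by
    refine finrank_le_pow hπ π (fun i => π (φ i)) (fun σ hσ => ?_) fun g hg => ?_
    · rw [hRfix] at hσ
      obtain ⟨g, hg, rfl⟩ := hσ
      exact ⟨g, rfl, hg⟩
    · rw [hLfix]
      exact ⟨g, hg, rfl⟩
  by_contra hX
  let ψ := pullback (R := R) χ M c hc hc1
  have hmod : Ideal.span {((M * Ideal.absNorm m : ℕ) : 𝓞 R)} ≠ ⊥ :=
    mt Ideal.span_singleton_eq_bot.mp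
      (Nat.cast_ne_zero.mpr (mul_ne_zero hM0 (mt Ideal.absNorm_eq_zero_iff.mp hm)))
  obtain ⟨SL, hSL⟩ := exists_bad_isDegreeOne L
  -- values at the given places
  have hval : ∀ (B : ValuationSubring Qb) (x : ℕ) (hx : x.Prime) (hB : B.LiesOverPrime x)
      (θ : Γ), θ ∈ H → B.IsFrobeniusAt θ x → ¬ x ∣ M * Ideal.absNorm m →
      (χ.toFun (placeIn K B hx hB).asIdeal, c x) ∈ ψ.values := by
    intro B x hx hB θ hθH hθ hxM
    refine AddSubgroup.subset_closure ⟨(placeIn R B hx hB).asIdeal, ?_⟩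
    exact pullback_placeIn
      (absNorm_eq_of_isDegreeOne (isDegreeOne_of_frobenius_mem hθ (by rwa [hRfix])))
      (absNorm_eq_of_isDegreeOne (isDegreeOne_of_frobenius_mem hθ
        (IntermediateField.fixingSubgroup_antitone hKR (by rwa [hRfix])))) hxM
  have h1 : ∀ i, (χ.toFun (placeIn K (A i) (hl i) (hA i)).asIdeal, c (l i)) ∈ ψ.values :=
    fun i => hval _ _ _ _ _ ⟨φ i, Subgroup.subset_closure ⟨i, rfl⟩, rfl⟩ (hφ i)
      ((hl i).not_dvd_mul (hlM i) (hgood i))
  have h2 : ((0 : V), ∑ i, a i • c (l i)) ∈ ψ.values := by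
    obtain ⟨g₀, hg₀⟩ : (∏ i, π (φ i) ^ a i) ∈ π.range :=
      Subgroup.prod_mem _ fun i _ => pow_mem (MonoidHom.mem_range.mpr ⟨φ i, rfl⟩) _
    have hg₀H : (g₀ : Γ) ∈ H := ⟨g₀, by
      show π g₀ ∈ T
      rw [hg₀]
      exact Subgroup.prod_mem _ fun i _ => pow_mem (Subgroup.subset_closure (Set.mem_range_self i)) _, rfl⟩
    have hg₀F : (g₀ : Γ) ∈ F.fixingSubgroup := by
      rw [← hker, show πF g₀ = (π g₀).1 from rfl, hg₀, Prod.fst_prod]
      simpa [π] using hrel
    obtain ⟨x, hx, hxS, B, hB, -, θ, hθ, hθg⟩ := FLTAgent.Chebotarev.exists_frobenius_eqOn L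
      (g₀ : Γ) (bad ∪ (M * Ideal.absNorm m).primeFactors)
    rw [Finset.mem_union, not_or] at hxS
    have hxM : ¬ x ∣ M * Ideal.absNorm m := fun h => hxS.2 (Nat.mem_primeFactors.mpr
      ⟨hx, h, mul_ne_zero hM0 (mt Ideal.absNorm_eq_zero_iff.mp hm)⟩)
    have hquot : (g₀ : Γ)⁻¹ * θ ∈ N := by
      rw [← hLfix, IntermediateField.mem_fixingSubgroup_iff]
      intro y hy
      rw [AlgEquiv.mul_apply, hθg y hy]
      exact (g₀ : Γ).symm_apply_apply y
    have hθH : θ ∈ H := by
      have := mul_mem hg₀H (hNH hquot)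
      rwa [mul_inv_cancel_left] at this
    have hθF : θ ∈ F.fixingSubgroup := by
      have := mul_mem hg₀F (hFL (hLfix.symm ▸ hquot))
      rwa [mul_inv_cancel_left] at this
    have hcθ : cG θ = cG g₀ := by
      obtain ⟨n, hn, hn'⟩ := hquot
      have h := ((hN n).mp hn).2
      rw [show ((n : Γ)) = (g₀ : Γ)⁻¹ * θ from hn', map_mul, map_inv, inv_mul_eq_one] at h
      exact h.symm
    have hcx : c x = ∑ i, a i • c (l i) := by
      rw [hcFrob B x hx hB (hx.coprime_iff_not_dvd.mpr fun h => hxM (h.mul_right _)) θ hθ,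
        show cG g₀ = (π g₀).2 from rfl, hg₀, Prod.snd_prod] at hcθ
      have h := congrArg Multiplicative.toAdd hcθ
      rw [toAdd_ofAdd, toAdd_prod] at h
      rw [h]
      refine Finset.sum_congr rfl fun i _ => ?_
      rw [Prod.pow_snd, toAdd_pow, show (π (φ i)).2 = cG (φ i) from rfl,
        hcFrob _ _ (hl i) (hA i) ((hl i).coprime_iff_not_dvd.mpr (hlM i)) _ (hφ i), toAdd_ofAdd]
    have h := hval B x hx hB θ hθH hθ hxM
    rwa [hvan B x hx hB hxS.1 θ hθF hθ, hcx] at h
  set X := ∑ i, a i • χ.toFun (placeIn K (A i) (hl i) (hA i)).asIdeal with hXdef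
  have hXmem : (X, (0 : {a : Fin r → ZMod p // a ≠ 0} → ZMod p)) ∈ ψ.values := by
    have h := sub_mem (sum_mem fun i (_ : i ∈ Finset.univ) => nsmul_mem (h1 i) (a i)) h2
    convert h using 1
    refine Prod.ext ?_ ?_ <;> simp [hXdef, Prod.fst_sum, Prod.snd_sum]
  let v : Fin (r + 1) → V × ({a : Fin r → ZMod p // a ≠ 0} → ZMod p) :=
    Fin.snoc (fun i => (χ.toFun (placeIn K (A i) (hl i) (hA i)).asIdeal, c (l i))) (X, 0)
  have hv : LinearIndependent (ZMod p) v := by
    rw [Fintype.linearIndependent_iff]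
    intro g hg
    rw [Fin.sum_univ_castSucc] at hg
    simp only [v, Fin.snoc_castSucc, Fin.snoc_last] at hg
    have hsnd := congrArg Prod.snd hg
    simp only [Prod.snd_add, Prod.snd_sum, Prod.smul_snd, smul_zero, add_zero, Prod.snd_zero]
      at hsnd
    have h0 := Fintype.linearIndependent_iff.mp hind _ hsnd
    have hfst := congrArg Prod.fst hg
    simp only [Prod.smul_fst, Prod.fst_zero, h0, zero_smul,
      Finset.sum_const_zero, zero_add] at hfst
    intro i
    refine Fin.lastCases ?_ (fun j => h0 j) i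
    exact (smul_eq_zero.mp hfst).resolve_right hX
  have hle := RayL.pow_le_finrank L hmod ψ v hv
    (fun i => Fin.lastCases (by simpa [v] using hXmem) (fun j => by simpa [v] using h1 j) i)
    _ (finite_places_above R (bad ∪ SL ∪ (M * Ideal.absNorm m).primeFactors))
    fun P hP _ hdeg => ?_
  · have hlt := Nat.pow_lt_pow_right hp'.one_lt (show r < r + 1 by omega)
    omega
  · obtain ⟨Q, hQP, hQ⟩ := hdeg
    obtain ⟨x, hx, hxQ⟩ := exists_prime_mem Q
    obtain ⟨B, hB, rfl⟩ := exists_placeIn L Q hx hxQ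
    obtain rfl : P = placeIn R B hx hB := by
      refine HeightOneSpectrum.ext (hQP.symm.trans ?_)
      exact congrArg HeightOneSpectrum.asIdeal
        (below_placeIn (K := R) (L := L) (hl := hx) (hA := hB))
    have hx' : x ∉ bad ∪ SL ∪ (M * Ideal.absNorm m).primeFactors :=
      fun h => hP ⟨x, h, hx, natCast_mem_placeIn⟩
    simp only [Finset.mem_union, not_or] at hx'
    obtain ⟨θ, hθ⟩ := exists_isFrobeniusAt hx hB
    have hθL : θ ∈ L.fixingSubgroup := hSL B x hx hB hx'.1.2 hQ θ hθ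
    have hxM : ¬ x ∣ M * Ideal.absNorm m := fun h => hx'.2 (Nat.mem_primeFactors.mpr
      ⟨hx, h, mul_ne_zero hM0 (mt Ideal.absNorm_eq_zero_iff.mp hm)⟩)
    have hθR : θ ∈ R.fixingSubgroup := IntermediateField.fixingSubgroup_antitone hRL hθL
    rw [pullback_placeIn (absNorm_eq_of_isDegreeOne (isDegreeOne_of_frobenius_mem hθ hθR))
      (absNorm_eq_of_isDegreeOne (isDegreeOne_of_frobenius_mem hθ
        (IntermediateField.fixingSubgroup_antitone hKR hθR))) hxM,
      hvan B x hx hB hx'.1.1 θ (hFL hθL) hθ]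
    refine Prod.ext rfl ?_
    rw [hLfix] at hθL
    obtain ⟨n, hn, rfl⟩ := hθL
    have h := hcFrob B x hx hB (hx.coprime_iff_not_dvd.mpr fun h => hxM (h.mul_right _)) _ hθ
    rw [show cG (K.fixingSubgroup.subtype n) = 1 from ((hN n).mp hn).2] at h
    exact congrArg Multiplicative.toAdd h.symm

end FLTAgent.TW.NormChar
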